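/-
S19, G-side brick DISC (helper2087): every class of `JZero N` is fixed by the absolute Galois group of a
number field.  Uses only the Prelude and the landed S24 place theory (finite support of `div f`).
-/
import Fermat.Agent.S24.RiemannHurwitz
import Fermat.Agent.S24.Degree

set_option autoImplicit false

open AlgebraicCurve ModularCurve IntermediateField

namespace Fermat.Agent.S19.Disc2087

/-! ### Part 1: every element of the base-changed function field is defined over a number field -/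

theorem exists_field_fixing_laurent (F₀ : IntermediateField ℚ (LaurentSeries ℚ))
    {x : LaurentSeries (AlgebraicClosure ℚ)} (hx : x ∈ laurentBaseChange (AlgebraicClosure ℚ) F₀) :
    ∃ K : IntermediateField ℚ (AlgebraicClosure ℚ), FiniteDimensional ℚ K ∧
      ∀ σ : AlgebraicClosure ℚ ≃ₐ[ℚ] AlgebraicClosure ℚ, (∀ a ∈ K, σ a = a) →
        coeffMap (σ : AlgebraicClosure ℚ →+* AlgebraicClosure ℚ) x = x := by
  rw [mem_laurentBaseChange_iff] at hx
  induction hx using Subfield.closure_induction with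
  | mem y hy =>
      rcases hy with ⟨a, rfl⟩ | ⟨z, hz, rfl⟩
      · refine ⟨ℚ⟮a⟯, ?_, fun σ hσ => ?_⟩
        · exact IntermediateField.adjoin.finiteDimensional
            ((AlgebraicClosure.isAlgebraic ℚ).isIntegral.isIntegral a)
        · rw [coeffMap_algebraMap]
          congr 1
          exact hσ a (IntermediateField.mem_adjoin_simple_self ℚ a)
      · exact ⟨⊥, inferInstance, fun σ _ => coeffMap_coeffEmb σ z⟩
  | one => exact ⟨⊥, inferInstance, fun σ _ => map_one _⟩
  | add x y _ _ hx hy =>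
      obtain ⟨K₁, h₁, hK₁⟩ := hx
      obtain ⟨K₂, h₂, hK₂⟩ := hy
      refine ⟨K₁ ⊔ K₂, IntermediateField.finiteDimensional_sup K₁ K₂, fun σ hσ => ?_⟩
      rw [map_add, hK₁ σ (fun a ha => hσ a ((le_sup_left : K₁ ≤ K₁ ⊔ K₂) ha)),
        hK₂ σ (fun a ha => hσ a ((le_sup_right : K₂ ≤ K₁ ⊔ K₂) ha))]
  | neg x _ hx =>
      obtain ⟨K, h, hK⟩ := hx
      exact ⟨K, h, fun σ hσ => by rw [map_neg, hK σ hσ]⟩
  | inv x _ hx =>
      obtain ⟨K, h, hK⟩ := hx
      exact ⟨K, h, fun σ hσ => by rw [map_inv₀, hK σ hσ]⟩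
  | mul x y _ _ hx hy =>
      obtain ⟨K₁, h₁, hK₁⟩ := hx
      obtain ⟨K₂, h₂, hK₂⟩ := hy
      refine ⟨K₁ ⊔ K₂, IntermediateField.finiteDimensional_sup K₁ K₂, fun σ hσ => ?_⟩
      rw [map_mul, hK₁ σ (fun a ha => hσ a ((le_sup_left : K₁ ≤ K₁ ⊔ K₂) ha)),
        hK₂ σ (fun a ha => hσ a ((le_sup_right : K₂ ≤ K₁ ⊔ K₂) ha))]

theorem exists_field_fixing (F₀ : IntermediateField ℚ (LaurentSeries ℚ))
    (f : laurentBaseChange (AlgebraicClosure ℚ) F₀) :
    ∃ K : IntermediateField ℚ (AlgebraicClosure ℚ), FiniteDimensional ℚ K ∧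
      ∀ σ : AlgebraicClosure ℚ ≃ₐ[ℚ] AlgebraicClosure ℚ, (∀ a ∈ K, σ a = a) →
        arithmeticGalois F₀ σ • f = f := by
  obtain ⟨K, hK, h⟩ := exists_field_fixing_laurent F₀ f.2
  exact ⟨K, hK, fun σ hσ => Subtype.ext (by rw [coe_arithmeticGalois_smul]; exact h σ hσ)⟩

theorem exists_field_fixing_finset (F₀ : IntermediateField ℚ (LaurentSeries ℚ))
    (S : Finset (laurentBaseChange (AlgebraicClosure ℚ) F₀)) :
    ∃ K : IntermediateField ℚ (AlgebraicClosure ℚ), FiniteDimensional ℚ K ∧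
      ∀ σ : AlgebraicClosure ℚ ≃ₐ[ℚ] AlgebraicClosure ℚ, (∀ a ∈ K, σ a = a) →
        ∀ f ∈ S, arithmeticGalois F₀ σ • f = f := by
  classical
  induction S using Finset.induction_on with
  | empty => exact ⟨⊥, inferInstance, fun _ _ f hf => absurd hf (Finset.notMem_empty f)⟩
  | insert f S _ ih =>
      obtain ⟨K₁, h₁, hK₁⟩ := ih
      obtain ⟨K₂, h₂, hK₂⟩ := exists_field_fixing F₀ f
      refine ⟨K₁ ⊔ K₂, IntermediateField.finiteDimensional_sup K₁ K₂, fun σ hσ g hg => ?_⟩
      rcases Finset.mem_insert.mp hg with rfl | hg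
      · exact hK₂ σ (fun a ha => hσ a ((le_sup_right : K₂ ≤ K₁ ⊔ K₂) ha))
      · exact hK₁ σ (fun a ha => hσ a ((le_sup_left : K₁ ≤ K₁ ⊔ K₂) ha)) g hg

/-! ### Part 2: distinct places are separated by a function -/

theorem exists_mem_not_mem {K F : Type*} [Field K] [Field F] [Algebra K F] {v w : Place K F}
    (h : v ≠ w) : ∃ g : F, g ∈ v.toValuationSubring ∧ g ∉ w.toValuationSubring := by
  by_contra hcon
  simp only [not_exists, not_and, not_not] at hcon
  apply h
  apply Place.ext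
  refine le_antisymm (fun g hg => hcon g hg) ?_
  intro x hxw
  by_contra hxv
  have hx0 : x ≠ 0 := fun h0 => hxv (h0 ▸ zero_mem _)
  obtain ⟨π, hπ⟩ := IsDiscreteValuationRing.exists_irreducible v.toValuationSubring
  obtain ⟨u, hu⟩ := v.exists_unit_mul_zpow hx0 hπ
  have hneg : v.ord x < 0 := by
    by_contra hnn
    exact hxv (Fermat.Agent.S24.A564.SO.Place_mem_of_ord_nonneg v (not_lt.mp hnn))
  have hπF : (π : F) ≠ 0 := by
    simpa [ne_eq, ZeroMemClass.coe_eq_zero] using hπ.ne_zero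
  have huF : ((u : v.toValuationSubring) : F) ≠ 0 := by
    simp [ne_eq, ZeroMemClass.coe_eq_zero]
  -- `π ^ (ord x) ∈ O_w`
  have h1 : (π : F) ^ (v.ord x) ∈ w.toValuationSubring := by
    have h2 : (π : F) ^ (v.ord x) = (((u⁻¹ : v.toValuationSubringˣ) : v.toValuationSubring) : F) * x := by
      conv_rhs => rw [hu]
      rw [← mul_assoc]
      have h3 : (((u⁻¹ : v.toValuationSubringˣ) : v.toValuationSubring) : F)
          * ((u : v.toValuationSubring) : F) = 1 := by
        have h := Units.inv_mul u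
        exact_mod_cast congrArg (Subtype.val) h
      rw [h3, one_mul]
    rw [h2]
    exact mul_mem (hcon _ ((u⁻¹ : v.toValuationSubringˣ) : v.toValuationSubring).2) hxw
  -- `π⁻¹ ∈ O_w`
  have h4 : (π : F)⁻¹ ∈ w.toValuationSubring := by
    obtain ⟨n, hn⟩ : ∃ n : ℕ, v.ord x = -((n : ℤ) + 1) := ⟨(-v.ord x - 1).toNat, by omega⟩
    have h5 : (π : F)⁻¹ = (π : F) ^ n * (π : F) ^ (v.ord x) := by
      rw [hn, zpow_neg, zpow_add₀ hπF, zpow_natCast, zpow_one]
      field_simp
    rw [h5]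
    exact mul_mem (pow_mem (hcon _ π.2) n) h1
  -- hence `O_w = ⊤`
  apply w.ne_top'
  refine SetLike.ext fun y => ⟨fun _ => ValuationSubring.mem_top y, fun _ => ?_⟩
  rcases eq_or_ne y 0 with rfl | hy0
  · exact zero_mem _
  obtain ⟨u', hu'⟩ := v.exists_unit_mul_zpow hy0 hπ
  rw [hu']
  refine mul_mem (hcon _ (u' : v.toValuationSubring).2) ?_
  rcases le_total 0 (v.ord y) with hle | hle
  · obtain ⟨m, hm⟩ := Int.eq_ofNat_of_zero_le hle
    rw [hm, zpow_natCast]
    exact pow_mem (hcon _ π.2) m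
  · obtain ⟨m, hm⟩ : ∃ m : ℕ, v.ord y = -(m : ℤ) := ⟨(-v.ord y).toNat, by omega⟩
    rw [hm, zpow_neg, zpow_natCast, ← inv_pow]
    exact pow_mem h4 m

/-! ### Part 3: every place of `ℚ̄(X₀(N))` is fixed by the Galois group of a number field -/

theorem exists_field_fixing_place (N : ℕ) [NeZero N]
    (v : Place (AlgebraicClosure ℚ) ↥(modularFunctionFieldBar N)) :
    ∃ K : IntermediateField ℚ (AlgebraicClosure ℚ), FiniteDimensional ℚ K ∧
      ∀ σ : AlgebraicClosure ℚ ≃ₐ[ℚ] AlgebraicClosure ℚ, (∀ a ∈ K, σ a = a) →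
        arithmeticGalois (modularFunctionFieldFull N) σ • v = v := by
  classical
  have := Fermat.Agent.S24.finiteDimensional_jBar N
  obtain ⟨π, hπ⟩ := IsDiscreteValuationRing.exists_irreducible v.toValuationSubring
  obtain ⟨T, hT, -⟩ := Fermat.Agent.S24.A564.exists_finset_sum_ord_eq_zero
    (Fermat.Agent.S24.jBar N) (Fermat.Agent.S24.jBar_transcendental N)
    ((π : ↥(modularFunctionFieldBar N)))
  -- separating functions
  have hsep : ∀ w : Place (AlgebraicClosure ℚ) ↥(modularFunctionFieldBar N), w ≠ v →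
      ∃ g : ↥(modularFunctionFieldBar N), g ∈ v.toValuationSubring ∧ g ∉ w.toValuationSubring :=
    fun w hw => exists_mem_not_mem (Ne.symm hw)
  choose! g hgv hgw using hsep
  obtain ⟨K, hK, hfix⟩ := exists_field_fixing_finset (modularFunctionFieldFull N)
    (insert (π : ↥(modularFunctionFieldBar N)) (T.image g))
  refine ⟨K, hK, fun σ hσ => ?_⟩
  set s := arithmeticGalois (modularFunctionFieldFull N) σ with hs
  have hfixπ : s • (π : ↥(modularFunctionFieldBar N)) = π :=
    hfix σ hσ _ (Finset.mem_insert_self _ _)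
  by_contra hne
  -- `s • v` is a zero of `π`, hence in `T`
  have hord : (s • v).ord (π : ↥(modularFunctionFieldBar N)) = 1 := by
    have h := SemilinearAut.ord_smul s v (π : ↥(modularFunctionFieldBar N))
    rw [hfixπ] at h
    rw [h, v.ord_coe_irreducible hπ]
  have hmemT : s • v ∈ T := by
    by_contra hnot
    have := hT _ hnot
    omega
  have hfixg : s • g (s • v) = g (s • v) :=
    hfix σ hσ _ (Finset.mem_insert_of_mem (Finset.mem_image_of_mem g hmemT))
  apply hgw (s • v) hne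
  have h2 : s • g (s • v) ∈ (s • v).toValuationSubring := by
    rw [SemilinearAut.smul_toValuationSubring]
    exact ValuationSubring.smul_mem_pointwise_smul s _ _ (hgv (s • v) hne)
  rwa [hfixg] at h2

/-! ### Part 4: divisors and classes -/

theorem exists_field_fixing_jZero (N : ℕ) [NeZero N] (x : JZero N) :
    ∃ K : IntermediateField ℚ (AlgebraicClosure ℚ), FiniteDimensional ℚ K ∧
      ∀ σ : AlgebraicClosure ℚ ≃ₐ[ℚ] AlgebraicClosure ℚ, (∀ a ∈ K, σ a = a) → σ • x = x := by
  classical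
  obtain ⟨D, rfl⟩ := Pic0.mk_surjective x
  -- a number field fixing every place in the support of `D`
  have hsupp : ∀ S : Finset (Place (AlgebraicClosure ℚ) ↥(modularFunctionFieldBar N)),
      ∃ K : IntermediateField ℚ (AlgebraicClosure ℚ), FiniteDimensional ℚ K ∧
        ∀ σ : AlgebraicClosure ℚ ≃ₐ[ℚ] AlgebraicClosure ℚ, (∀ a ∈ K, σ a = a) →
          ∀ v ∈ S, arithmeticGalois (modularFunctionFieldFull N) σ • v = v := by
    intro S
    induction S using Finset.induction_on with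
    | empty => exact ⟨⊥, inferInstance, fun _ _ v hv => absurd hv (Finset.notMem_empty v)⟩
    | insert v S _ ih =>
        obtain ⟨K₁, h₁, hK₁⟩ := ih
        obtain ⟨K₂, h₂, hK₂⟩ := exists_field_fixing_place N v
        refine ⟨K₁ ⊔ K₂, IntermediateField.finiteDimensional_sup K₁ K₂, fun σ hσ w hw => ?_⟩
        rcases Finset.mem_insert.mp hw with rfl | hw
        · exact hK₂ σ (fun a ha => hσ a ((le_sup_right : K₂ ≤ K₁ ⊔ K₂) ha))
        · exact hK₁ σ (fun a ha => hσ a ((le_sup_left : K₁ ≤ K₁ ⊔ K₂) ha)) w hw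
  obtain ⟨K, hK, hfix⟩ := hsupp (D : Divisor (AlgebraicClosure ℚ) ↥(modularFunctionFieldBar N)).support
  refine ⟨K, hK, fun σ hσ => ?_⟩
  rw [galois_smul_pic0_def, SemilinearAut.pic0_smul_mk]
  congr 1
  apply Subtype.ext
  rw [SemilinearAut.coe_degZeroSMulHom, SemilinearAut.divisor_smul_def]
  have h1 : Finsupp.mapDomain (arithmeticGalois (modularFunctionFieldFull N) σ • ·)
      (D : Divisor (AlgebraicClosure ℚ) ↥(modularFunctionFieldBar N))
      = Finsupp.mapDomain id (D : Divisor (AlgebraicClosure ℚ) ↥(modularFunctionFieldBar N)) :=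
    Finsupp.mapDomain_congr fun v hv => hfix σ hσ v hv
  rw [h1, Finsupp.mapDomain_id]

end Fermat.Agent.S19.Disc2087
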